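import Fermat.Agent.RT.MazurP.Trivial.Ending
import Fermat.Agent.RT.MazurP.Interface

/-!
# A class with trivial reductions over a small coefficient field is trivial

Let `f` be a Kummer function at level `p M` over a coefficient field with `e = 1` or `e = p`,
both reductions being one. Then `f` is a constant times a `p`-th power.
-/

set_option autoImplicit false
set_option synthInstance.maxHeartbeats 400000
set_option maxHeartbeats 1000000
set_option linter.unusedSectionVars false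

noncomputable section

namespace Fermat.Agent.RT.MazurP

open ModularCurve AlgebraicCurve Fermat.Agent.Semistable Fermat.Agent.Arith
open Fermat.Agent.RT.Mazur

variable {A : ValuationSubring QBar} {p M : ℕ} [Fact p.Prime] [CharP (Res A) p] [NeZero M]
variable [FF.IsFunctionField (Res A) (KM A M)] {hpM : ¬ p ∣ M}

theorem cst_mul (a b : A) : cst hpM (a * b) = cst hpM a * cst hpM b :=
  Subtype.ext (map_mul (algebraMap QBar (FB (p * M))) (a : QBar) (b : QBar))

theorem cst_pow (a : A) (n : ℕ) : cst hpM (a ^ n) = cst hpM a ^ n :=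
  Subtype.ext (by push_cast [coe_cst]; rfl)

theorem cst_add (a b : A) : cst hpM (a + b) = cst hpM a + cst hpM b :=
  Subtype.ext (map_add (algebraMap QBar (FB (p * M))) (a : QBar) (b : QBar))

theorem cst_natCast (n : ℕ) : cst hpM (n : A) = (n : loc2 A (iota2 M p hpM)) :=
  Subtype.ext (by push_cast [coe_cst]; rfl)

/-- A function without zeros and poles is constant. -/
theorem exists_eq_const {z : FB (p * M)} (hz : z ≠ 0)
    (h : ∀ v : Place QBar (FB (p * M)), v.ord z = 0) :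
    ∃ c : QBar, z = algebraMap QBar (FB (p * M)) c := by
  have h1 : Module.finrank QBar (riemannRochSpace (0 : Divisor QBar (FB (p * M)))) = 1 := by
    have := FF.ell_zero (K := QBar) (F := FB (p * M))
    simp only [FF.ell] at this
    exact_mod_cast this
  have hmem : ∀ y : FB (p * M), y ≠ 0 → (∀ v : Place QBar (FB (p * M)), v.ord y = 0) →
      y ∈ riemannRochSpace (0 : Divisor QBar (FB (p * M))) := fun y hy hv =>
    FF.mem_riemannRochSpace'.mpr fun v => FF.mem_ordGe_of_le v (by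
      rw [hv, Finsupp.zero_apply, neg_zero])
  obtain ⟨b, hb⟩ := exists_smul_eq_of_finrank_eq_one h1
    (x := (⟨1, hmem 1 one_ne_zero fun v => v.ord_one⟩ :
      riemannRochSpace (0 : Divisor QBar (FB (p * M)))))
    (fun e => one_ne_zero (congrArg Subtype.val e)) ⟨z, hmem z hz h⟩
  refine ⟨b, ?_⟩
  have e := congrArg (fun x : riemannRochSpace (0 : Divisor QBar (FB (p * M))) =>
    (x : FB (p * M))) hb
  simp only [Submodule.coe_smul] at e
  rw [← e, ← Algebra.algebraMap_eq_smul_one]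

variable {C : CoefField A p} (K : Kum hpM C)

/-- The trivial class has the spaces `L(m ∞)`. -/
theorem Kum.one_V (m : ℕ) : (Kum.one C hpM).V m = HN M p m := by
  ext φ
  rw [Kum.mem_V]
  show φ ^ p * 1 ∈ _ ↔ _
  rw [mul_one]
  refine ⟨fun h => root_mem_polesSpace (Fact.out : p.Prime).ne_zero h, fun h => ?_⟩
  rw [mul_comm p m]
  have key : ∀ i : ℕ, φ ^ i ∈ HN M p (m * i) := fun i => by
    induction i with
    | zero => rw [pow_zero]; exact one_mem_polesSpace _ _
    | succ i ih => rw [pow_succ, Nat.mul_succ]; exact mul_mem_polesSpace ih h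
  exact key p

theorem Kum.Im_zero (K : Kum hpM C) (m : ℕ) :
    K.Im 0 m = redSub A (iota2 M p hpM) (K.V m) := by
  rw [Kum.Im, redSub]
  congr 2
  exact LinearMap.ext fun φ => funext fun s => tw_zero C hpM φ s

variable (hfb : ∀ s, K.fb s = 1) (hv : K.v = 0)
include hfb hv

/-- The reductions of `L(n ∞ + D)` are those of `L(n ∞)`. -/
theorem Kum.exists_glue (hA : A.LiesOverPrime p) (hM : (M : Res A) ≠ 0) (V : VUnit A hpM)
    (hV : V.Simple) :
    ∃ n₀ : ℕ, ∀ n, n₀ ≤ n → redSub A (iota2 M p hpM) (K.V n) = Bn A M p hpM n := by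
  have hδ : K.δ = 0 := by rw [Kum.δ, hv]; simp
  obtain ⟨n₀, hn₀⟩ := K.exists_Im_congr V hA hM hV (Kum.one C hpM)
    (funext fun s => hfb s) hδ (k := 0) (by rw [hδ]; simp)
  refine ⟨n₀, fun n hn => ?_⟩
  rw [← K.Im_zero, hn₀ n hn, Kum.Im_zero, Kum.one_V]

theorem Kum.f_mem : K.f ∈ loc2 A (iota2 M p hpM) := by
  refine (mem_loc2 _).mpr fun s => ?_
  obtain ⟨h, -⟩ := K.spec s
  rwa [hv, Pi.zero_apply, neg_zero, zpow_zero, map_one, one_mul] at h

theorem Kum.red2_f : red2 A (iota2 M p hpM) ⟨K.f, K.f_mem hfb hv⟩ = 1 := by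
  funext s
  obtain ⟨h, hr⟩ := K.spec s
  rw [red2_apply, redL_congr _ h (by rw [hv, Pi.zero_apply, neg_zero, zpow_zero, map_one, one_mul]),
    hr, hfb]
  rfl

/-- The first order term of `f` is a constant. -/
theorem Kum.exists_first_order (hA : A.LiesOverPrime p) (hM : (M : Res A) ≠ 0) (h4 : 4 ∣ M)
    (hgood : GoodM A M) (V : VUnit A hpM) (hV : V.Simple) :
    ∃ (f₁ : loc2 A (iota2 M p hpM)) (γ : Res A),
      (⟨K.f, K.f_mem hfb hv⟩ : loc2 A (iota2 M p hpM)) =
        1 + cst hpM ⟨C.π, mem_of_mem_nonunits C.π_nonunit⟩ * f₁ ∧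
      red2 A (iota2 M p hpM) f₁ = γ • 1 := by
  classical
  have hp : p.Prime := Fact.out
  let h : Setup A M p := ⟨hA, hpM, hM, hgood⟩
  set F : loc2 A (iota2 M p hpM) := ⟨K.f, K.f_mem hfb hv⟩ with hF
  set πA : A := ⟨C.π, mem_of_mem_nonunits C.π_nonunit⟩ with hπA
  set πc := cst hpM πA with hπc
  obtain ⟨f₁, hf₁, -⟩ := C.exists_eq_π_mul hA (F - 1)
    (fun τ hτ => by
      show galF (p * M) τ (K.f - 1) = K.f - 1
      rw [map_sub, map_one, K.fix τ hτ])
    (by rw [map_sub, K.red2_f hfb hv, map_one, sub_self])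
  have hFeq : F = 1 + πc * f₁ := by rw [← hf₁]; ring
  obtain ⟨n₀, hn₀⟩ := K.exists_glue hfb hv hA hM V hV
  obtain ⟨n₅, hn₅⟩ := exists_smul_one_of_mem h h4
  set n := n₀ + n₅ with hn
  have hπpow : ∀ j : ℕ, 2 ≤ j → πc ^ j = πc ^ 2 * πc ^ (j - 2) := fun j hj => by
    rw [← pow_add]; congr 1; omega
  obtain ⟨p₁, hp₁⟩ : ∃ p₁ : loc2 A (iota2 M p hpM), (p : loc2 A (iota2 M p hpM)) = πc * p₁ := by
    refine ⟨cst hpM ⟨_, C.inv_π_mul_mem_of_nonunit (a := (p : QBar))
      ((natCast_mem_nonunits_iff hA hp p).mpr dvd_rfl) fun τ _ => map_natCast τ p⟩, ?_⟩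
    rw [hπc, ← cst_mul, ← cst_natCast]
    refine congrArg (cst hpM) (Subtype.ext ?_)
    push_cast
    exact (mul_inv_cancel_left₀ C.π_ne_zero _).symm
  have main : ∀ a : ℕ, (a = 0 ∨ a = n) →
      jPow A p (a * p) * red2 A (iota2 M p hpM) f₁ ∈ Bn A M p hpM (p * n) := by
    intro a ha
    have hJa : red2 A (iota2 M p hpM) (Jp A hpM ^ a) ∈ redSub A (iota2 M p hpM) (K.V n) := by
      rw [hn₀ n (by omega)]
      refine mem_redSub.mpr ⟨Jp A hpM ^ a, ?_, rfl⟩
      rw [SubmonoidClass.coe_pow]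
      exact RedTorsion.polesSpace_mono (by omega) (Jp_pow_mem_HN a)
    have : FiniteDimensional QBar (K.V n) := by unfold Kum.V; infer_instance
    obtain ⟨φ, hφV, hφfix, hφr⟩ := exists_fixed_lift_redSub hA C.le_inertia (K.V n)
      (fun τ hτ x hx => K.galF_mem_V hτ hx) hJa
    obtain ⟨φ₁, hφ₁, -⟩ := C.exists_eq_π_mul hA (φ - Jp A hpM ^ a)
      (fun τ hτ => by
        push_cast
        rw [map_sub, map_pow, galF_Jp, hφfix τ hτ])
      (by rw [map_sub, hφr, sub_self])
    have hφeq : φ = Jp A hpM ^ a + πc * φ₁ := by rw [← hφ₁]; ring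
    obtain ⟨R, hR⟩ := exists_add_pow_eq hp (Jp A hpM ^ a) (πc * φ₁)
    set Q := p₁ * (Jp A hpM ^ a) ^ (p - 1) * φ₁ + (p : loc2 A (iota2 M p hpM)) * φ₁ ^ 2 * R +
      πc ^ (p - 2) * φ₁ ^ p with hQ
    have hpow : φ ^ p = Jp A hpM ^ (a * p) + πc ^ 2 * Q := by
      rw [hφeq, hR, ← pow_mul, mul_pow πc φ₁ p, hπpow p hp.two_le, hQ]
      linear_combination ((Jp A hpM ^ a) ^ (p - 1) * (πc * φ₁)) * hp₁
    set G := Jp A hpM ^ (a * p) * f₁ + πc * (Q * F) with hG
    have hGeq : πc * G = φ ^ p * F - Jp A hpM ^ (a * p) := by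
      rw [hpow, hG, hFeq]; ring
    have hGmem : (G : FB (p * M)) ∈ HN M p (p * n) := by
      have h1 : (φ : FB (p * M)) ^ p * K.f ∈ HN M p (p * n) := K.mem_V.mp hφV
      have h2 : (Jp A hpM : FB (p * M)) ^ (a * p) ∈ HN M p (p * n) :=
        RedTorsion.polesSpace_mono (by rw [mul_comm p n]; exact Nat.mul_le_mul_right p (by omega))
          (Jp_pow_mem_HN _)
      have e : (G : FB (p * M)) = C.π⁻¹ •
          ((φ : FB (p * M)) ^ p * K.f - (Jp A hpM : FB (p * M)) ^ (a * p)) := by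
        have e1 := congrArg Subtype.val hGeq
        push_cast [hπc, coe_cst] at e1
        rw [show ((φ : FB (p * M)) ^ p * K.f - (Jp A hpM : FB (p * M)) ^ (a * p)) = _ from e1.symm,
          Algebra.smul_def, ← mul_assoc, ← map_mul, inv_mul_cancel₀ C.π_ne_zero, map_one, one_mul]
      rw [e]
      exact Submodule.smul_mem _ _ (sub_mem h1 h2)
    have hr : red2 A (iota2 M p hpM) G = jPow A p (a * p) * red2 A (iota2 M p hpM) f₁ := by
      rw [hG, map_add, hπc, red2_cst_mul, map_mul, red2_Jp_pow,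
        (IsLocalRing.residue_eq_zero_iff πA).mpr (ValuationSubring.coe_mem_nonunits_iff.mp C.π_nonunit),
        zero_smul, add_zero]
    exact mem_redSub.mpr ⟨G, hGmem, hr⟩
  have hf1B : red2 A (iota2 M p hpM) f₁ ∈ Bn A M p hpM (p * n) := by
    have := main 0 (Or.inl rfl)
    rwa [zero_mul, show jPow A p 0 = (1 : Fin 2 → LaurentSeries (Res A)) from
      funext fun s => by fin_cases s <;> simp [jPow], one_mul] at this
  obtain ⟨γ, hγ⟩ := hn₅ (p * n) (le_trans (by omega) (Nat.le_mul_of_pos_left n hp.pos)) _ hf1B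
    (cancel_jPow (k := n * p) (b := p * n) (Bn_le_Pk M p hpM hA hM _ hf1B)
      (Bn_le_Pk M p hpM hA hM _ (main n (Or.inr rfl))) (le_of_eq (mul_comm p n)))
  exact ⟨f₁, γ, hFeq, hγ⟩

/-- **A class with trivial reductions is trivial.** -/
theorem Kum.exists_principal (hCe : C.e = 1 ∨ C.e = p) (hp5 : 5 ≤ p)
    (hA : A.LiesOverPrime p) (hM : (M : Res A) ≠ 0) (h4 : 4 ∣ M) (V : VUnit A hpM)
    (hV : V.Simple) :
    ∃ (h : FB (p * M)) (c : QBar), K.f = algebraMap QBar (FB (p * M)) c * h ^ p := by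
  classical
  have hp : p.Prime := Fact.out
  by_cases hL0 : ∀ y ∈ riemannRochSpace K.D, y = (0 : FB (p * M))
  swap
  · push Not at hL0
    obtain ⟨y, hy, hy0⟩ := hL0
    have hyD := exists_principal_of_section K.degree_D hy hy0
    obtain ⟨c, hc⟩ := exists_eq_const (mul_ne_zero K.f_ne (pow_ne_zero p hy0)) fun v => by
      rw [v.ord_mul K.f_ne (pow_ne_zero p hy0), FF.ord_pow, ← K.D_mul, ← hyD v, v.ord_inv]
      ring
    refine ⟨y⁻¹, c, ?_⟩
    rw [← hc, inv_pow, mul_inv_cancel_right₀ (pow_ne_zero p hy0)]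
  exfalso
  have hgood : GoodM A M := goodM_of_dvd (Or.inl rfl) h4 hM
  obtain ⟨f₁, γ, hF, hγ⟩ := K.exists_first_order hfb hv hA hM h4 hgood V hV
  obtain ⟨n₁, hn₁⟩ := K.exists_relation hA hM h4 hgood hL0 (K.exists_glue hfb hv hA hM V hV)
  obtain ⟨n₂, hn₂⟩ := exists_redSub_WB (hpM := hpM) hA hM h4 hgood
  obtain ⟨n₃, hn₃⟩ := exists_descend_SB (hpM := hpM) hA hM hgood
  set n := n₁ + n₂ + n₃ + 1 with hn
  obtain ⟨k, β, x, z, w, hk, hβ, hxV, hzV, hxfix, hzfix, hwfix, hrel, hxr, hzr, htB, htS⟩ :=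
    hn₁ n (by omega)
  set P := n * p with hP
  have hWS : redSub A (iota2 M p hpM) (WB A hpM P) = SB A hpM P :=
    hn₂ P (le_trans (by omega) (Nat.le_mul_of_pos_right n hp.pos))
  set t := red2 A (iota2 M p hpM) w with ht
  refine htS (hn₃ n (by omega) (β ^ (p - 1)) t (pow_ne_zero _ hβ) htB ?_)
  set F : loc2 A (iota2 M p hpM) := ⟨K.f, K.f_mem hfb hv⟩ with hFdef
  have hFr : red2 A (iota2 M p hpM) F = 1 := K.red2_f hfb hv
  set πA : A := ⟨C.π, mem_of_mem_nonunits C.π_nonunit⟩ with hπA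
  have hπ0 : IsLocalRing.residue A πA = 0 :=
    (IsLocalRing.residue_eq_zero_iff πA).mpr (ValuationSubring.coe_mem_nonunits_iff.mp C.π_nonunit)
  have hrel' : Jp A hpM ^ n * x = z + cst hpM (πA ^ k) * w := hrel
  set E : loc2 A (iota2 M p hpM) := ((Jp A hpM ^ n * x) ^ p - z ^ p) * F with hE
  have hEW : (E : FB (p * M)) ∈ WB A hpM P := by
    have e : (E : FB (p * M)) =
        (Jp A hpM : FB (p * M)) ^ P * ((x : FB (p * M)) ^ p * K.f) - (z : FB (p * M)) ^ p * K.f := by
      rw [hE, hP, hFdef]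
      push_cast
      ring
    rw [e]
    have hxH := K.mem_V.mp hxV
    have hzH := K.mem_V.mp hzV
    rw [mul_comm p n] at hxH hzH
    exact sub_mem (Submodule.mem_sup_left ⟨_, hxH, rfl⟩) (Submodule.mem_sup_right hzH)
  obtain ⟨R, hR⟩ := exists_add_pow_eq hp z (cst hpM (πA ^ k) * w)
  have hzp : red2 A (iota2 M p hpM) (z ^ (p - 1)) = β ^ (p - 1) • jPow A p (n * (p - 1)) := by
    rw [map_pow, hzr, pi_smul_pow, ← jPow_mul]
  have hpQ : (p : QBar) ≠ 0 := Nat.cast_ne_zero.mpr hp.ne_zero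
  have hπv : (0 : A.ValueGroup) < A.valuation C.π :=
    zero_lt_iff.mpr ((Valuation.ne_zero_iff _).mpr C.π_ne_zero)
  by_cases hbig : C.e < (p - 1) * k
  · -- the linear term dominates
    set d : QBar := C.π ^ ((p - 1) * k) / (p : QBar) with hd
    have hdn : d ∈ A.nonunits := by
      show A.valuation d < 1
      rw [hd, map_div₀, map_pow, C.val_p, div_lt_one₀ (pow_pos hπv _)]
      exact pow_lt_pow_right_of_lt_one₀ hπv C.π_nonunit hbig
    set dA : A := ⟨d, mem_of_mem_nonunits hdn⟩ with hdA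
    set G := z ^ (p - 1) * w * F + cst hpM (πA ^ k) * (w ^ 2 * R * F) +
      cst hpM dA * (w ^ p * F) with hG
    have hds : πA ^ (k * p) = (p : A) * πA ^ k * dA := Subtype.ext (by
      push_cast [hdA, hπA, hd]
      have e : k * p = k + (p - 1) * k := by
        rw [Nat.sub_mul, one_mul, mul_comm k p]
        have := Nat.le_mul_of_pos_left k hp.pos
        omega
      rw [e, pow_add]
      field_simp)
    have hEG : E = cst hpM ((p : A) * πA ^ k) * G := by
      have e1 : cst hpM (πA ^ k) ^ p =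
          (p : loc2 A (iota2 M p hpM)) * cst hpM (πA ^ k) * cst hpM dA := by
        rw [← cst_pow, ← pow_mul, hds, cst_mul, cst_mul, cst_natCast]
      rw [hE, hrel', hR, hG, cst_mul, cst_natCast, mul_pow]
      linear_combination (w ^ p * F) * e1
    have hGW : (G : FB (p * M)) ∈ WB A hpM P := by
      have e : (G : FB (p * M)) = ((p : QBar) * C.π ^ k)⁻¹ • (E : FB (p * M)) := by
        rw [hEG, Subring.coe_mul, coe_cst,
          show (((p : A) * πA ^ k : A) : QBar) = (p : QBar) * C.π ^ k by push_cast [hπA]; rfl,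
          Algebra.smul_def, ← mul_assoc, ← map_mul,
          inv_mul_cancel₀ (mul_ne_zero hpQ (pow_ne_zero _ C.π_ne_zero)), map_one, one_mul]
      rw [e]
      exact Submodule.smul_mem _ _ hEW
    have hGr : red2 A (iota2 M p hpM) G = β ^ (p - 1) • (jPow A p (n * (p - 1)) * t) := by
      rw [hG, map_add, map_add, red2_cst_mul, red2_cst_mul, map_pow (IsLocalRing.residue A), hπ0,
        zero_pow (by omega), (IsLocalRing.residue_eq_zero_iff dA).mpr
          (ValuationSubring.coe_mem_nonunits_iff.mp hdn), zero_smul, zero_smul, add_zero, add_zero,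
        map_mul, map_mul, hFr, mul_one, hzp, pi_smul_mul]
    rw [← hWS]
    exact mem_redSub.mpr ⟨G, hGW, hGr⟩
  · -- the first order digit
    have hk1 : k = 1 ∧ C.e = p := by
      rcases hCe with he | he
      · exfalso
        apply hbig
        have := Nat.mul_le_mul (show 2 ≤ p - 1 by omega) hk
        omega
      · refine ⟨by_contra fun hk1 => hbig ?_, he⟩
        have := Nat.mul_le_mul_left (p - 1) (show 2 ≤ k by omega)
        omega
    obtain ⟨rfl, he⟩ := hk1
    rw [pow_one] at hR hrel'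
    set ε : QBar := C.π ^ p / (p : QBar) with hε
    have hεv : A.valuation ε = 1 := by
      rw [hε, map_div₀, map_pow, C.val_p, he, div_self (pow_ne_zero _ hπv.ne')]
    obtain ⟨hεA, hεne⟩ := residue_unit_ne_zero (A := A) hεv
    obtain ⟨a₀, ha₀, ha₀fix, ha₀r⟩ :=
      exists_inertiaFixed_lift hA hp (IsLocalRing.residue A ⟨ε, hεA⟩)
    have hε₁mem : C.π⁻¹ * (ε - a₀) ∈ A := by
      refine C.inv_π_mul_mem_of_nonunit ?_ fun τ hτ => ?_
      · refine (residue_eq_zero_iff (sub_mem hεA ha₀)).mp ?_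
        rw [show (⟨ε - a₀, sub_mem hεA ha₀⟩ : A) = ⟨ε, hεA⟩ - ⟨a₀, ha₀⟩ from rfl, map_sub, ha₀r,
          sub_self]
      · rw [map_sub, ha₀fix τ (C.le_inertia hτ), hε, map_div₀, map_pow, C.π_fixed τ hτ, map_natCast]
    set εA : A := ⟨ε, hεA⟩ with hεAdef
    set aA : A := ⟨a₀, ha₀⟩ with haA
    set e₁ : A := ⟨C.π⁻¹ * (ε - a₀), hε₁mem⟩ with he₁
    have hεsplit : εA = aA + πA * e₁ := Subtype.ext (by
      push_cast [hεAdef, haA, he₁, hπA]
      rw [mul_inv_cancel_left₀ C.π_ne_zero]; ring)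
    have hεp : (p : A) * εA = πA ^ p := Subtype.ext (by
      push_cast [hεAdef, hπA, hε]
      field_simp)
    -- a rational lift of `t`
    obtain ⟨w₀, hw₀W, hw₀fix, hw₀r⟩ := exists_fixed_lift_redSub (H := A.inertiaSubgroupIn ℚ) hA
      le_rfl (HN M p (n + n)) (fun τ _ a ha => galF_mem_poles (p * M) (by rw [galF_upF, galF_jM]) ha)
      htB
    obtain ⟨w₁, hw₁, -⟩ := C.exists_eq_π_mul hA (w - w₀)
      (fun τ hτ => by push_cast; rw [map_sub, hwfix τ hτ, hw₀fix τ (C.le_inertia hτ)])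
      (by rw [map_sub, hw₀r, sub_self])
    have hweq : w = w₀ + cst hpM πA * w₁ := by rw [← hw₁]; ring
    have hp2 : ∃ p₂ : A, (p : A) = πA ^ 2 * p₂ := by
      refine ⟨⟨(p : QBar) / C.π ^ 2, (A.valuation_le_one_iff _).mp ?_⟩, Subtype.ext ?_⟩
      · rw [map_div₀, C.val_p, map_pow, he]
        exact (div_le_one₀ (pow_pos hπv _)).mpr
          (pow_le_pow_right_of_le_one' C.π_nonunit.le hp.two_le)
      · push_cast [hπA]
        rw [mul_div_cancel₀ _ (pow_ne_zero 2 C.π_ne_zero)]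
    obtain ⟨p₂, hp₂⟩ := hp2
    have hp₂' : (p : loc2 A (iota2 M p hpM)) = cst hpM πA ^ 2 * cst hpM p₂ := by
      rw [← cst_natCast, hp₂, cst_mul, cst_pow]
    obtain ⟨R₀, hR₀⟩ := exists_add_pow_eq hp w₀ (cst hpM πA * w₁)
    obtain ⟨Q, hQ⟩ : ∃ Q, w ^ p = w₀ ^ p + cst hpM πA ^ 2 * Q := by
      refine ⟨cst hpM p₂ * (w₀ ^ (p - 1) * (cst hpM πA * w₁) + (cst hpM πA * w₁) ^ 2 * R₀) +
        cst hpM πA ^ (p - 2) * w₁ ^ p, ?_⟩
      have e : cst hpM πA ^ p = cst hpM πA ^ 2 * cst hpM πA ^ (p - 2) := by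
        rw [← pow_add]; congr 1; omega
      rw [hweq, hR₀, mul_pow (cst hpM πA) w₁ p, e, hp₂']
      ring
    set G := cst hpM εA * (w ^ p * F) + cst hpM πA * (z ^ (p - 1) * w * F) +
      cst hpM πA * (cst hpM πA * (w ^ 2 * R * F)) with hG
    have hEG : E = cst hpM (p : A) * G := by
      have e1 : cst hpM πA ^ p = (p : loc2 A (iota2 M p hpM)) * cst hpM εA := by
        rw [← cst_pow, ← hεp, cst_mul, cst_natCast]
      rw [hE, hrel', hR, hG, cst_natCast, mul_pow]
      linear_combination (w ^ p * F) * e1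
    have hGW : (G : FB (p * M)) ∈ WB A hpM P := by
      have e : (G : FB (p * M)) = ((p : QBar))⁻¹ • (E : FB (p * M)) := by
        rw [hEG, Subring.coe_mul, coe_cst, show ((p : A) : QBar) = (p : QBar) by push_cast; rfl,
          Algebra.smul_def, ← mul_assoc, ← map_mul, inv_mul_cancel₀ hpQ, map_one, one_mul]
      rw [e]
      exact Submodule.smul_mem _ _ hEW
    set εr := IsLocalRing.residue A εA with hεr
    have hGr : red2 A (iota2 M p hpM) G = εr • t ^ p := by
      rw [hG, map_add, map_add, red2_cst_mul, red2_cst_mul, red2_cst_mul, hπ0, zero_smul, zero_smul,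
        add_zero, add_zero, map_mul, map_pow, hFr, mul_one]
    have htp : t ^ p ∈ SB A hpM P := by
      have h1 : εr • t ^ p ∈ SB A hpM P := hWS ▸ mem_redSub.mpr ⟨G, hGW, hGr⟩
      have := Submodule.smul_mem _ εr⁻¹ h1
      rwa [smul_smul, inv_mul_cancel₀ hεne, one_smul] at this
    obtain ⟨T, hTW, hTfix, hTr⟩ := exists_fixed_lift_redSub (H := A.inertiaSubgroupIn ℚ) hA le_rfl
      (WB A hpM P) (fun τ _ a ha => galF_mem_WB τ P ha) (mem_redSub.mpr ⟨G, hGW, hGr⟩)
    have haAr : IsLocalRing.residue A aA = εr := ha₀r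
    obtain ⟨d₁, hd₁, -⟩ := (unramField (p := p) hA).exists_eq_π_mul hA (T - cst hpM aA * w₀ ^ p)
      (fun τ hτ => by
        show galF (p * M) τ ((T : FB (p * M)) - algebraMap QBar (FB (p * M)) a₀ * (w₀ : FB (p * M)) ^ p) =
          (T : FB (p * M)) - algebraMap QBar (FB (p * M)) a₀ * (w₀ : FB (p * M)) ^ p
        rw [map_sub, map_mul, map_pow, hTfix τ hτ, hw₀fix τ hτ, galF_const (ha₀fix τ hτ)])
      (by rw [map_sub, hTr, red2_cst_mul, haAr, map_pow, hw₀r, sub_self])
    have hTeq : T = cst hpM aA * w₀ ^ p + cst hpM πA ^ 2 * cst hpM p₂ * d₁ := by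
      rw [← hp₂', ← cst_natCast, show cst hpM (p : A) * d₁ = T - cst hpM aA * w₀ ^ p from hd₁.symm]
      ring
    set H := cst hpM e₁ * w₀ ^ p + cst hpM aA * (w₀ ^ p * f₁) + z ^ (p - 1) * w +
      cst hpM πA * (cst hpM e₁ * (w₀ ^ p * f₁) + cst hpM εA * (Q * F) + z ^ (p - 1) * w * f₁ +
        w ^ 2 * R * F - cst hpM p₂ * d₁) with hH
    have hGH : G - T = cst hpM πA * H := by
      have hεc : cst hpM εA = cst hpM aA + cst hpM πA * cst hpM e₁ := by
        rw [hεsplit, cst_add, cst_mul]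
      have hFeq : F = 1 + cst hpM πA * f₁ := hF
      rw [hG, hTeq, hH, hQ]
      linear_combination (w₀ ^ p * (1 + cst hpM πA * f₁)) * hεc +
        (cst hpM εA * w₀ ^ p + cst hpM πA * (z ^ (p - 1) * w)) * hFeq
    have hHW : (H : FB (p * M)) ∈ WB A hpM P := by
      have e : (H : FB (p * M)) = C.π⁻¹ • ((G : FB (p * M)) - (T : FB (p * M))) := by
        have e1 := congrArg Subtype.val hGH
        push_cast [hπA, coe_cst] at e1
        rw [e1, Algebra.smul_def, ← mul_assoc, ← map_mul, inv_mul_cancel₀ C.π_ne_zero, map_one,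
          one_mul]
      rw [e]
      exact Submodule.smul_mem _ _ (sub_mem hGW hTW)
    have hHr : red2 A (iota2 M p hpM) H = (IsLocalRing.residue A e₁ + εr * γ) • t ^ p +
        β ^ (p - 1) • (jPow A p (n * (p - 1)) * t) := by
      rw [hH, map_add, map_add, map_add, red2_cst_mul, red2_cst_mul, red2_cst_mul, hπ0, zero_smul,
        add_zero, map_mul, map_mul, map_pow, hw₀r, hγ, hzp, haAr, pi_smul_mul, mul_pi_smul, mul_one,
        smul_smul, add_smul]
    have h1 : red2 A (iota2 M p hpM) H ∈ SB A hpM P := hWS ▸ mem_redSub.mpr ⟨H, hHW, rfl⟩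
    rw [hHr] at h1
    exact (Submodule.add_mem_iff_right _ (Submodule.smul_mem _ _ htp)).mp h1

end Fermat.Agent.RT.MazurP

end
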