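import Fermat.Agent.RT.MazurP.Lift
import Fermat.Agent.RT.MazurP.Level
import Fermat.Agent.RT.Mazur.Orders
import Fermat.Agent.RT.Mazur.Injective

/-!
# Fixed lifts, constants and the binomial formula modulo `p t ^ 2`

Helpers for the triviality of classes with trivial reductions at `p`.
-/

set_option autoImplicit false
set_option synthInstance.maxHeartbeats 400000
set_option maxHeartbeats 1000000
set_option linter.unusedSectionVars false

noncomputable section

namespace Fermat.Agent.RT.MazurP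

open ModularCurve AlgebraicCurve Fermat.Agent.Semistable Fermat.Agent.Arith
open Fermat.Agent.RT.Mazur

/-- `(z + t) ^ p` modulo `p t ^ 2`. -/
theorem exists_add_pow_eq {R : Type*} [CommRing R] {p : ℕ} (hp : p.Prime) (z t : R) :
    ∃ r, (z + t) ^ p = z ^ p + (p : R) * z ^ (p - 1) * t + (p : R) * t ^ 2 * r + t ^ p := by
  obtain ⟨k, rfl⟩ : ∃ k, p = k + 2 := ⟨p - 2, by have := hp.two_le; omega⟩
  have hdiv : ∀ i < k, ((k + 2).choose (i + 2) : R) =
      ((k + 2 : ℕ) : R) * (((k + 2).choose (i + 2) / (k + 2) : ℕ) : R) := fun i hi => by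
    rw [← Nat.cast_mul, Nat.mul_div_cancel' (hp.dvd_choose_self (by omega) (by omega))]
  refine ⟨∑ i ∈ Finset.range k,
    (((k + 2).choose (i + 2) / (k + 2) : ℕ) : R) * (t ^ i * z ^ (k - i)), ?_⟩
  rw [add_comm z t, add_pow, Finset.sum_range_succ, Finset.sum_range_succ', Finset.sum_range_succ',
    Finset.mul_sum]
  rw [Finset.sum_congr rfl fun i hi => show
      t ^ (i + 1 + 1) * z ^ (k + 2 - (i + 1 + 1)) * ((k + 2).choose (i + 1 + 1) : R) =
        ((k + 2 : ℕ) : R) * t ^ 2 *
          ((((k + 2).choose (i + 2) / (k + 2) : ℕ) : R) * (t ^ i * z ^ (k - i))) by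
    have hi' := Finset.mem_range.mp hi
    rw [show i + 1 + 1 = i + 2 from rfl, hdiv i hi', show k + 2 - (i + 2) = k - i by omega, pow_add]
    ring]
  simp only [zero_add, Nat.choose_one_right, Nat.choose_zero_right, Nat.choose_self,
    show k + 2 - 1 = k + 1 by omega, pow_one, pow_zero, Nat.sub_zero, Nat.sub_self, Nat.cast_one]
  ring

variable {A : ValuationSubring QBar} {p M : ℕ} [Fact p.Prime] [NeZero M] {hpM : ¬ p ∣ M}

/-- A constant of `A` as an integral function. -/
def cst (hpM : ¬ p ∣ M) (a : A) : loc2 A (iota2 M p hpM) :=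
  ⟨algebraMap QBar (FB (p * M)) a, algebraMap_mem_loc2 _ a.2⟩

@[simp] theorem coe_cst (a : A) :
    (cst hpM a : FB (p * M)) = algebraMap QBar (FB (p * M)) a := rfl

theorem red2_cst (a : A) :
    red2 A (iota2 M p hpM) (cst hpM a) = IsLocalRing.residue A a • 1 := by
  funext s
  rw [Pi.smul_apply, Pi.one_apply, Igusa.hsmul_eq, mul_one]
  exact red2_const (iota2 M p hpM) s

theorem red2_cst_mul (a : A) (x : loc2 A (iota2 M p hpM)) :
    red2 A (iota2 M p hpM) (cst hpM a * x) = IsLocalRing.residue A a • red2 A (iota2 M p hpM) x := by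
  rw [map_mul, red2_cst]
  funext s
  rw [Pi.mul_apply, Pi.smul_apply, Pi.smul_apply, Pi.one_apply, Igusa.hsmul_eq, Igusa.hsmul_eq,
    mul_one]

theorem fix_iota {τ : GQ} {x : FB (p * M)} (h : galF (p * M) τ x = x) (s : Fin 2) :
    coeffMap (τ : QBar →+* QBar) (iota2 M p hpM s x) = iota2 M p hpM s x := by
  rw [← iota2_galF, h]

theorem galF_const {τ : GQ} {a : QBar} (h : τ a = a) :
    galF (p * M) τ (algebraMap QBar (FB (p * M)) a) = algebraMap QBar (FB (p * M)) a := by
  refine Subtype.ext ((coe_arithmeticRingAut τ _).trans ?_)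
  show coeffMap (τ : QBar →+* QBar) (algebraMap QBar LSer a) = algebraMap QBar LSer a
  rw [coeffMap_algebraMap]
  exact congrArg _ h

/-- A fixed element of `A` which is not a unit is divisible by the uniformiser. -/
theorem CoefField.inv_π_mul_mem_of_nonunit (C : CoefField A p) {a : QBar} (ha : a ∈ A.nonunits)
    (hfix : ∀ τ ∈ C.H, τ a = a) : C.π⁻¹ * a ∈ A := by
  rcases eq_or_ne a 0 with rfl | h0
  · rw [mul_zero]; exact zero_mem _
  obtain ⟨n, hn⟩ := C.discrete a h0 hfix
  have hπ : A.valuation C.π < 1 := C.π_nonunit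
  have hπ0 : (0 : A.ValueGroup) < A.valuation C.π :=
    zero_lt_iff.mpr ((Valuation.ne_zero_iff _).mpr C.π_ne_zero)
  have hlt : A.valuation a < 1 := ha
  have hn1 : 1 ≤ n := by
    by_contra h
    rw [hn] at hlt
    exact absurd hlt (not_lt.mpr (one_le_zpow_of_nonpos₀ hπ0 hπ.le (by omega)))
  refine (A.valuation_le_one_iff _).mp ?_
  rw [map_mul, map_inv₀, hn, ← zpow_neg_one, ← zpow_add₀ hπ0.ne']
  obtain ⟨e, he⟩ : ∃ e : ℕ, -1 + n = e := ⟨(-1 + n).toNat, by omega⟩
  rw [he, zpow_natCast]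
  exact pow_le_one₀ zero_le hπ.le

/-- A fixed integral function with zero reductions is divisible by the uniformiser. -/
theorem CoefField.exists_eq_π_mul (C : CoefField A p) (hA : A.LiesOverPrime p)
    (d : loc2 A (iota2 M p hpM)) (hfix : ∀ τ ∈ C.H, galF (p * M) τ d = d)
    (hred : red2 A (iota2 M p hpM) d = 0) :
    ∃ d₁ : loc2 A (iota2 M p hpM), d = cst hpM ⟨C.π, mem_of_mem_nonunits C.π_nonunit⟩ * d₁ ∧
      ∀ τ ∈ C.H, galF (p * M) τ d₁ = d₁ := by
  have hm : algebraMap QBar (FB (p * M)) C.π⁻¹ * (d : FB (p * M)) ∈ loc2 A (iota2 M p hpM) := by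
    refine (mem_loc2 _).mpr fun s => ?_
    rw [map_mul, AlgHom.commutes]
    refine C.inv_π_mul_mem hA ((mem_loc2 _).mp d.2 s) (fun τ hτ => fix_iota (hfix τ hτ) s) ?_
    rw [← red2_apply, hred]
    rfl
  refine ⟨⟨_, hm⟩, Subtype.ext ?_, fun τ hτ => ?_⟩
  · rw [Subring.coe_mul, coe_cst, ← mul_assoc, ← map_mul, mul_inv_cancel₀ C.π_ne_zero, map_one,
      one_mul]
  · show galF (p * M) τ (_ * _) = _
    rw [map_mul, hfix τ hτ, galF_const (by rw [map_inv₀, C.π_fixed τ hτ])]

/-- A stable subspace contains fixed lifts of its reductions. -/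
theorem exists_fixed_lift_redSub (hA : A.LiesOverPrime p) {H : Subgroup GQ}
    (hH : H ≤ A.inertiaSubgroupIn ℚ) (W : Submodule QBar (FB (p * M))) [FiniteDimensional QBar W]
    (hW : ∀ τ ∈ H, ∀ x ∈ W, galF (p * M) τ x ∈ W) {r : Fin 2 → LaurentSeries (Res A)}
    (hr : r ∈ redSub A (iota2 M p hpM) W) :
    ∃ y : loc2 A (iota2 M p hpM), (y : FB (p * M)) ∈ W ∧
      (∀ τ ∈ H, galF (p * M) τ y = y) ∧ red2 A (iota2 M p hpM) y = r := by
  classical
  have hp : p.Prime := Fact.out
  obtain ⟨w, hw, hwW, hwfix, hli⟩ := exists_fixed_redBasis hA hp hH (iota2 M p hpM)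
    (iota2_fracS M p hpM) (fun τ _ s x => iota2_galF hpM τ s x) W hW
  obtain ⟨hfin, hdim⟩ := finrank_redSub p hA _ (iota2_fracS M p hpM) W
  set v : Fin (Module.finrank QBar W) → (Fin 2 → LaurentSeries (Res A)) :=
    fun a s => redL A ⟨iota2 M p hpM s (w a), hw a s⟩ with hv
  have hspan : redSub A (iota2 M p hpM) W = Submodule.span (Res A) (Set.range v) := by
    refine (Submodule.eq_of_le_of_finrank_le (Submodule.span_le.mpr ?_) ?_).symm
    · rintro _ ⟨a, rfl⟩
      exact mem_redSub.mpr ⟨⟨_, (mem_loc2 _).mpr (hw a)⟩, hwW a, funext fun s => red2_apply _ _ s⟩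
    · rw [hdim, finrank_span_eq_card hli, Fintype.card_fin]
  rw [hspan, Submodule.mem_span_range_iff_exists_fun] at hr
  obtain ⟨c, rfl⟩ := hr
  choose a ha hafix hares using fun i => exists_inertiaFixed_lift hA hp (c i)
  let wl : Fin (Module.finrank QBar W) → loc2 A (iota2 M p hpM) :=
    fun i => ⟨w i, (mem_loc2 _).mpr (hw i)⟩
  refine ⟨∑ i, cst hpM ⟨a i, ha i⟩ * wl i, ?_, fun τ hτ => ?_, ?_⟩
  · push_cast
    refine W.sum_mem fun i _ => ?_
    rw [coe_cst, ← Algebra.smul_def]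
    exact W.smul_mem _ (hwW i)
  · push_cast
    rw [map_sum]
    refine Finset.sum_congr rfl fun i _ => ?_
    rw [map_mul, coe_cst, galF_const (hafix i τ (hH hτ))]
    refine congrArg _ (galF_eq_self ?_)
    rw [← iota2_zero M p hpM (w i)]
    exact hwfix i 0 τ hτ
  · rw [map_sum]
    refine Finset.sum_congr rfl fun i _ => ?_
    rw [red2_cst_mul, hares]
    exact congrArg (c i • ·) (funext fun s => red2_apply _ _ s)

end Fermat.Agent.RT.MazurP

end
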