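import Fermat.Agent.RT.MazurP.Trivial.Relation

/-!
# Descending a membership in `J ^ P B + B`

The reductions of `J ^ P L(P ∞) + L(P ∞)` are `J ^ P B + B`; if a multiple of `J ^ (n (p - 1)) t`
lies there, `P = n p` and `t ∈ B (2 n)`, then `t ∈ J ^ n B + B`.
-/

set_option autoImplicit false
set_option synthInstance.maxHeartbeats 400000
set_option maxHeartbeats 1000000
set_option linter.unusedSectionVars false

noncomputable section

namespace Fermat.Agent.RT.MazurP

open ModularCurve AlgebraicCurve Fermat.Agent.Semistable Fermat.Agent.Arith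
open Fermat.Agent.RT.Mazur

variable {A : ValuationSubring QBar} {p M : ℕ} [Fact p.Prime] [CharP (Res A) p] [NeZero M]
variable [FF.IsFunctionField (Res A) (KM A M)] {hpM : ¬ p ∣ M}

/-- `J ^ P L(P ∞) + L(P ∞)`. -/
def WB (A : ValuationSubring QBar) (hpM : ¬ p ∣ M) (P : ℕ) : Submodule QBar (FB (p * M)) :=
  (HN M p P).map (LinearMap.mulLeft QBar ((Jp A hpM : FB (p * M)) ^ P)) ⊔ HN M p P

instance (P : ℕ) : FiniteDimensional QBar (WB A hpM P) := by unfold WB; infer_instance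

theorem galF_mem_WB (τ : GQ) (P : ℕ) {x : FB (p * M)} (hx : x ∈ WB A hpM P) :
    galF (p * M) τ x ∈ WB A hpM P := by
  have hst : ∀ a ∈ HN M p P, galF (p * M) τ a ∈ HN M p P := fun a ha =>
    galF_mem_poles (p * M) (by rw [galF_upF, galF_jM]) ha
  obtain ⟨_, ⟨a, ha, rfl⟩, b, hb, rfl⟩ := Submodule.mem_sup.mp hx
  rw [map_add]
  refine add_mem (Submodule.mem_sup_left ⟨galF (p * M) τ a, hst a ha, ?_⟩)
    (Submodule.mem_sup_right (hst b hb))
  rw [LinearMap.mulLeft_apply, LinearMap.mulLeft_apply, map_mul, map_pow, galF_Jp]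

/-- The reductions of `J ^ P L(P ∞) + L(P ∞)`. -/
theorem exists_redSub_WB (hA : A.LiesOverPrime p) (hM : (M : Res A) ≠ 0) (h4 : 4 ∣ M)
    (hgood : GoodM A M) :
    ∃ n₀ : ℕ, ∀ P, n₀ ≤ P → redSub A (iota2 M p hpM) (WB A hpM P) = SB A hpM P := by
  let h : Setup A M p := ⟨hA, hpM, hM, hgood⟩
  obtain ⟨n₅, hn₅⟩ := exists_smul_one_of_mem h h4
  refine ⟨n₅, fun P hP => ?_⟩
  have hBfin := (finrank_Bn M p hpM hA P).1
  have hinj : Function.Injective (LinearMap.mulLeft QBar ((Jp A hpM : FB (p * M)) ^ P)) :=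
    mul_right_injective₀ (Jp_pow_ne_zero P)
  have hmu : Function.Injective (mulPair (jPow A p P)) := fun a b e => funext fun s =>
    mul_left_cancel₀ (jPow_ne_zero P s) (congrFun e s)
  have hj0 : jPow A p P ≠ (0 : Fin 2 → LaurentSeries (Res A)) := fun h0 =>
    jPow_ne_zero (A := A) (q := p) P 0 (congrFun h0 0)
  obtain ⟨hWfin, hWdim⟩ := finrank_redSub p hA _ (iota2_fracS M p hpM) (WB A hpM P)
  have hSfin : FiniteDimensional (Res A) (SB A hpM P) := by unfold SB; infer_instance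
  refine (Submodule.eq_of_le_of_finrank_le ?_ ?_).symm
  · refine sup_le ?_ ?_
    · rintro _ ⟨r, hr, rfl⟩
      obtain ⟨e, he, rfl⟩ := mem_redSub.mp hr
      refine mem_redSub.mpr ⟨Jp A hpM ^ P * e, Submodule.mem_sup_left ⟨_, he, ?_⟩, ?_⟩
      · push_cast; rfl
      · rw [map_mul, red2_Jp_pow]; rfl
    · intro r hr
      obtain ⟨e, he, rfl⟩ := mem_redSub.mp hr
      exact mem_redSub.mpr ⟨e, Submodule.mem_sup_right he, rfl⟩
  · have h1 := finrank_sup_lt ((HN M p P).map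
        (LinearMap.mulLeft QBar ((Jp A hpM : FB (p * M)) ^ P))) (HN M p P)
      (z := (Jp A hpM : FB (p * M)) ^ P) (Jp_pow_ne_zero P)
      ⟨1, one_mem_polesSpace _ _, mul_one ((Jp A hpM : FB (p * M)) ^ P)⟩ (Jp_pow_mem_HN P)
    rw [← (Submodule.equivMapOfInjective _ hinj _).finrank_eq] at h1
    have h2 := Submodule.finrank_sup_add_finrank_inf_eq ((Bn A M p hpM P).map
      (mulPair (jPow A p P))) (Bn A M p hpM P)
    rw [← (Submodule.equivMapOfInjective _ hmu _).finrank_eq,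
      (finrank_Bn M p hpM hA P).2] at h2
    have h3 : Module.finrank (Res A) ((Bn A M p hpM P).map (mulPair (jPow A p P)) ⊓
        Bn A M p hpM P : Submodule (Res A) (Fin 2 → LaurentSeries (Res A))) ≤ 1 := by
      refine (Submodule.finrank_mono (t := Submodule.span (Res A) {jPow A p P}) ?_).trans
        (le_of_eq (finrank_span_singleton hj0))
      rintro _ ⟨⟨r, hr, rfl⟩, hr'⟩
      obtain ⟨b, rfl⟩ := hn₅ P hP r hr (cancel_jPow
        (Bn_le_Pk M p hpM hA hM P hr) (Bn_le_Pk M p hpM hA hM P hr') (by omega))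
      exact Submodule.mem_span_singleton.mpr ⟨b, by
        show b • jPow A p P = jPow A p P * (b • 1)
        rw [mul_pi_smul, mul_one]⟩
    show Module.finrank (Res A) _ ≤ Module.finrank (Res A)
      ((Bn A M p hpM P).map (mulPair (jPow A p P)) ⊔ Bn A M p hpM P : Submodule (Res A) _)
    rw [hWdim]
    unfold WB
    omega

/-- Descending to the exponent `n`. -/
theorem exists_descend_SB (hA : A.LiesOverPrime p) (hM : (M : Res A) ≠ 0) (hgood : GoodM A M) :
    ∃ n₀ : ℕ, ∀ n, n₀ ≤ n → ∀ (κ : Res A) (t : Fin 2 → LaurentSeries (Res A)), κ ≠ 0 →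
      t ∈ Bn A M p hpM (n + n) → κ • (jPow A p (n * (p - 1)) * t) ∈ SB A hpM (n * p) →
      t ∈ SB A hpM n := by
  let h : Setup A M p := ⟨hA, hpM, hM, hgood⟩
  obtain ⟨n₄, hn₄⟩ := h.exists_descend
  refine ⟨n₄, fun n hn κ t hκ htB hG => ?_⟩
  set P := n * p with hP
  have hp1 : 1 ≤ p := (Fact.out : p.Prime).one_le
  have hnP : n ≤ P := Nat.le_mul_of_pos_right n (by omega)
  have hPn : P = n * (p - 1) + n := by
    rw [hP, ← Nat.mul_succ, Nat.succ_eq_add_one, Nat.sub_add_cancel hp1]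
  obtain ⟨_, ⟨r, hr, rfl⟩, r', hr', hsum⟩ := Submodule.mem_sup.mp hG
  have hPk : ∀ {m : ℕ} {e : Fin 2 → LaurentSeries (Res A)}, e ∈ Bn A M p hpM m →
      e ∈ Pk A M p m := fun he => Bn_le_Pk M p hpM hA hM _ he
  have hjB : jPow A p n ∈ Bn A M p hpM n := mem_redSub.mpr
    ⟨Jp A hpM ^ n, by rw [SubmonoidClass.coe_pow]; exact Jp_pow_mem_HN n, red2_Jp_pow n⟩
  have hsum' : jPow A p P * r + r' = κ • (jPow A p (n * (p - 1)) * t) := hsum
  have hrPk : r ∈ Pk A M p n := by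
    refine cancel_jPow (k := P) (b := n * (p - 1) + (n + n)) (hPk hr) ?_ (by omega)
    rw [eq_sub_of_add_eq hsum']
    exact sub_mem (Submodule.smul_mem _ κ (mul_mem_Pk (jPow_mem_Pk _) (hPk htB)))
      (Pk_mono A M p (by omega) (hPk hr'))
  have hrB : r ∈ Bn A M p hpM n := hn₄ n (by omega) P hnP r hr hrPk
  set ρ := κ • t - jPow A p n * r with hρ
  have hρB : ρ ∈ Bn A M p hpM (n + n) :=
    sub_mem (Submodule.smul_mem _ κ htB) (h.mul_mem_Bn hjB hrB)
  have hρr : jPow A p (n * (p - 1)) * ρ = r' := by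
    rw [hρ, mul_sub, ← mul_assoc, ← jPow_add, ← hPn, mul_pi_smul, ← hsum', add_sub_cancel_left]
  have hρn : ρ ∈ Bn A M p hpM n := hn₄ n (by omega) (n + n) (by omega) ρ hρB
    (cancel_jPow (k := n * (p - 1)) (b := P) (hPk hρB) (hρr ▸ hPk hr') (by omega))
  have et : t = κ⁻¹ • (jPow A p n * r + ρ) := by
    rw [hρ, add_sub_cancel, smul_smul, inv_mul_cancel₀ hκ, one_smul]
  rw [et]
  exact Submodule.smul_mem _ _
    (add_mem (Submodule.mem_sup_left ⟨r, hrB, rfl⟩) (Submodule.mem_sup_right hρn))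

end Fermat.Agent.RT.MazurP

end
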