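import Fermat.Agent.RT.MazurP.Trivial.Basic

/-!
# The section relation of a class with trivial reductions

If `D` is not principal some combination `J ^ n x - z` of sections of `L(n ∞ + D)` is divisible by a
power of the uniformiser with quotient reducing outside `J ^ n B + B`.
-/

set_option autoImplicit false
set_option synthInstance.maxHeartbeats 400000
set_option maxHeartbeats 1000000
set_option linter.unusedSectionVars false

noncomputable section

namespace Fermat.Agent.RT.MazurP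

open ModularCurve AlgebraicCurve Fermat.Agent.Semistable Fermat.Agent.Arith
open Fermat.Agent.RT.Mazur

variable {A : ValuationSubring QBar} {p M : ℕ} [Fact p.Prime] [CharP (Res A) p] [NeZero M]
variable [FF.IsFunctionField (Res A) (KM A M)] {hpM : ¬ p ∣ M}

/-- `j` of level `M` as an integral function of level `p M`. -/
def Jp (A : ValuationSubring QBar) (hpM : ¬ p ∣ M) : loc2 A (iota2 M p hpM) :=
  upParam M hpM ⟨jM M, jM_mem M⟩

theorem coe_Jp : (Jp A hpM : FB (p * M)) = upF M p (jM M) := rfl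

theorem galF_Jp (τ : GQ) : galF (p * M) τ (Jp A hpM : FB (p * M)) = Jp A hpM := by
  rw [coe_Jp, galF_upF, galF_jM]

theorem red2_Jp_pow (k : ℕ) : red2 A (iota2 M p hpM) (Jp A hpM ^ k) = jPow A p k := by
  have e : red2 A (iota2 M p hpM) (Jp A hpM) =
      ![jqModC (Res A), qExpand (Res A) p (jqModC (Res A))] := by
    exact (red2_upF M p hpM ⟨jM M, jM_mem M⟩).trans (by rw [red1_jM])
  rw [map_pow, e]
  funext s; fin_cases s <;> simp [jPow]

theorem Jp_pow_ne_zero (k : ℕ) : (Jp A hpM : FB (p * M)) ^ k ≠ 0 := pow_ne_zero k fun h0 => by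
  have := red2_Jp_pow (A := A) (hpM := hpM) 1
  rw [pow_one, show Jp A hpM = 0 from Subtype.ext h0, map_zero] at this
  exact jPow_ne_zero (A := A) (q := p) 1 0 (congrFun this.symm 0)

theorem Jp_pow_mem_HN (k : ℕ) : (Jp A hpM : FB (p * M)) ^ k ∈ HN M p k := by
  induction k with
  | zero => rw [pow_zero]; exact one_mem_polesSpace _ _
  | succ k ih =>
    rw [pow_succ]
    refine mul_mem_polesSpace ih ?_
    rw [RedTorsion.mem_polesSpace]
    intro v
    refine FF.mem_ordGe_of_le v ?_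
    rw [coe_Jp, FF.poles_apply, Nat.cast_one, one_mul]
    omega

/-- `J ^ n B + B`. -/
def SB (A : ValuationSubring QBar) [CharP (Res A) p] (hpM : ¬ p ∣ M) (n : ℕ) :
    Submodule (Res A) (Fin 2 → LaurentSeries (Res A)) :=
  (Bn A M p hpM n).map (mulPair (jPow A p n)) ⊔ Bn A M p hpM n

variable {C : CoefField A p}

/-- A nonzero fixed function has an exact scaling by powers of the uniformiser. -/
theorem exists_zpow_scale (hA : A.LiesOverPrime p) {z : FB (p * M)} (hz : z ≠ 0)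
    (hfix : ∀ τ ∈ C.H, galF (p * M) τ z = z) :
    ∃ n : ℤ, (∀ m ≤ n, algebraMap QBar (FB (p * M)) (C.π ^ (-m)) * z ∈ loc2 A (iota2 M p hpM)) ∧
      ∃ h : algebraMap QBar (FB (p * M)) (C.π ^ (-n)) * z ∈ loc2 A (iota2 M p hpM),
        red2 A (iota2 M p hpM) ⟨_, h⟩ ≠ 0 := by
  have hp : p.Prime := Fact.out
  have key : ∀ s, ∃ n : ℤ,
      IsGUnit A (algebraMap QBar LSer (C.π ^ (-n)) * iota2 M p hpM s z) := fun s =>
    C.exists_zpow_isGUnit hA hp (iota2_fracS M p hpM s z) ((_root_.map_ne_zero _).mpr hz)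
      fun τ hτ => fix_iota (hfix τ hτ) s
  choose n hn using key
  obtain ⟨s, hs⟩ := Finite.exists_min n
  have hmem : ∀ m ≤ n s,
      algebraMap QBar (FB (p * M)) (C.π ^ (-m)) * z ∈ loc2 A (iota2 M p hpM) := by
    intro m hm
    refine (mem_loc2 _).mpr fun t => ?_
    obtain ⟨e, he⟩ : ∃ e : ℕ, -m = e + -n t := ⟨(n t - m).toNat, by
      have := hs t; omega⟩
    rw [map_mul, AlgHom.commutes, he, zpow_add₀ C.π_ne_zero, map_mul, zpow_natCast, mul_assoc]
    exact mul_mem (algebraMap_mem_locS (pow_mem (mem_of_mem_nonunits C.π_nonunit) e)) (hn t).1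
  refine ⟨n s, hmem, hmem _ le_rfl, fun h0 => (hn s).2 ?_⟩
  have h1 := congrFun h0 s
  rw [red2_apply, redL_congr _ (hn s).1 (by rw [map_mul, AlgHom.commutes])] at h1
  exact h1

variable (K : Kum hpM C)

/-- If `K.D` has no section, a relation between two sections with a new quotient. -/
theorem Kum.exists_relation (hA : A.LiesOverPrime p) (hM : (M : Res A) ≠ 0) (h4 : 4 ∣ M)
    (hgood : GoodM A M) (hL0 : ∀ y ∈ riemannRochSpace K.D, y = (0 : FB (p * M)))
    (hglue : ∃ n₀ : ℕ, ∀ n, n₀ ≤ n → redSub A (iota2 M p hpM) (K.V n) = Bn A M p hpM n) :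
    ∃ n₀ : ℕ, ∀ n, n₀ ≤ n → ∃ (k : ℕ) (β : Res A) (x z w : loc2 A (iota2 M p hpM)),
      1 ≤ k ∧ β ≠ 0 ∧ (x : FB (p * M)) ∈ K.V n ∧ (z : FB (p * M)) ∈ K.V n ∧
      (∀ τ ∈ C.H, galF (p * M) τ x = x) ∧ (∀ τ ∈ C.H, galF (p * M) τ z = z) ∧
      (∀ τ ∈ C.H, galF (p * M) τ w = w) ∧
      Jp A hpM ^ n * x = z + cst hpM ⟨C.π ^ k, pow_mem (mem_of_mem_nonunits C.π_nonunit) k⟩ * w ∧
      red2 A (iota2 M p hpM) x = β • 1 ∧ red2 A (iota2 M p hpM) z = β • jPow A p n ∧
      red2 A (iota2 M p hpM) w ∈ Bn A M p hpM (n + n) ∧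
      red2 A (iota2 M p hpM) w ∉ SB A hpM n := by
  classical
  have hp : p.Prime := Fact.out
  let h : Setup A M p := ⟨hA, hpM, hM, hgood⟩
  obtain ⟨n₁, hn₁⟩ := exists_finrank_HD (M := M) (q := p)
  obtain ⟨n₂, hn₂⟩ := hglue
  obtain ⟨n₅, hn₅⟩ := exists_smul_one_of_mem h h4
  refine ⟨n₁ + n₂ + n₅ + 1, fun n hn => ?_⟩
  have hV : redSub A (iota2 M p hpM) (K.V n) = Bn A M p hpM n := hn₂ n (by omega)
  set V := K.V n with hVdef
  have : FiniteDimensional QBar V := by rw [hVdef]; unfold Kum.V; infer_instance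
  set μ := LinearMap.mulLeft QBar ((Jp A hpM : FB (p * M)) ^ n) with hμ
  have hμinj : Function.Injective μ := mul_right_injective₀ (Jp_pow_ne_zero n)
  have hinf : V.map μ ⊓ V = ⊥ := by
    rw [Submodule.eq_bot_iff]
    rintro _ ⟨⟨y, hy, rfl⟩, hy'⟩
    suffices hy0 : y = 0 by rw [hy0]; exact map_zero μ
    by_contra hy0
    refine hy0 (hL0 y (FF.mem_riemannRochSpace'.mpr fun v => ?_))
    have h1 := FF.mem_riemannRochSpace'.mp hy v
    rw [Finsupp.add_apply, RedTorsion.nsmul_poles_apply] at h1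
    by_cases hv : v.ord (upF M p (jM M)) < 0
    · have hy'' : (Jp A hpM : FB (p * M)) ^ n * y ∈ V := hy'
      have h2 := FF.le_ord_of_mem_ordGe v (mul_ne_zero (Jp_pow_ne_zero n) hy0)
        (FF.mem_riemannRochSpace'.mp hy'' v)
      rw [v.ord_mul (Jp_pow_ne_zero n) hy0, FF.ord_pow, Finsupp.add_apply,
        RedTorsion.nsmul_poles_apply, coe_Jp, FF.poles_apply, max_eq_right (by omega)] at h2
      exact FF.mem_ordGe_of_le v (by linarith)
    · rwa [FF.poles_apply, max_eq_left (by omega), mul_zero, add_zero] at h1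
  set N := Module.finrank QBar (HN M p n) with hN
  have hdimV : Module.finrank QBar V = N := by
    rw [hN, ← hn₁ K.D K.degree_D n (by omega), hVdef, Kum.V]
    simp only [HD]
    rw [add_comm]
  have hdimW : Module.finrank QBar (V.map μ ⊔ V : Submodule QBar (FB (p * M))) = N + N := by
    have := Submodule.finrank_sup_add_finrank_inf_eq (V.map μ) V
    rw [hinf, finrank_bot, add_zero, ← (Submodule.equivMapOfInjective μ hμinj V).finrank_eq,
      hdimV] at this
    exact this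
  obtain ⟨hWfin, hWdim⟩ := finrank_redSub p hA _ (iota2_fracS M p hpM) (V.map μ ⊔ V)
  rw [hdimW] at hWdim
  have hBfin := (finrank_Bn M p hpM hA n).1
  have hSfin : FiniteDimensional (Res A) (SB A hpM n) := by unfold SB; infer_instance
  have hSlt : Module.finrank (Res A) (SB A hpM n) < N + N := by
    have h1 := finrank_sup_lt ((Bn A M p hpM n).map (mulPair (jPow A p n))) (Bn A M p hpM n)
      (z := jPow A p n) (fun h0 => jPow_ne_zero (A := A) (q := p) n 0 (congrFun h0 0))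
      ⟨1, h.one_mem_Bn n, mul_one (jPow A p n)⟩
      (mem_redSub.mpr ⟨Jp A hpM ^ n, by rw [SubmonoidClass.coe_pow]; exact Jp_pow_mem_HN n,
        red2_Jp_pow n⟩)
    rw [← (Submodule.equivMapOfInjective (mulPair (jPow A p n)) (fun a b e => funext fun s =>
      mul_left_cancel₀ (jPow_ne_zero n s) (congrFun e s)) _).finrank_eq,
      (finrank_Bn M p hpM hA n).2] at h1
    show Module.finrank (Res A)
      ((Bn A M p hpM n).map (mulPair (jPow A p n)) ⊔ Bn A M p hpM n : Submodule (Res A) _) < N + N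
    omega
  obtain ⟨t, htW, htS⟩ := SetLike.not_le_iff_exists.mp (show
      ¬ redSub A (iota2 M p hpM) (V.map μ ⊔ V) ≤ SB A hpM n from fun hle => by
    have := Submodule.finrank_mono hle
    omega)
  have hstab : ∀ τ ∈ C.H, ∀ e ∈ V.map μ ⊔ V, galF (p * M) τ e ∈ V.map μ ⊔ V := by
    intro τ hτ e he
    obtain ⟨_, ⟨a, ha, rfl⟩, b, hb, rfl⟩ := Submodule.mem_sup.mp he
    rw [map_add]
    refine add_mem (Submodule.mem_sup_left ⟨galF (p * M) τ a, K.galF_mem_V hτ ha, ?_⟩)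
      (Submodule.mem_sup_right (K.galF_mem_V hτ hb))
    rw [hμ, LinearMap.mulLeft_apply, LinearMap.mulLeft_apply, map_mul, map_pow, galF_Jp]
  obtain ⟨w, hwW, hwfix, rfl⟩ := exists_fixed_lift_redSub hA C.le_inertia _ hstab htW
  obtain ⟨_, ⟨y, hy, rfl⟩, y', hy', hyw⟩ := Submodule.mem_sup.mp hwW
  rw [hμ, LinearMap.mulLeft_apply] at hyw
  -- the decomposition is fixed
  have hyfix : ∀ τ ∈ C.H, galF (p * M) τ y = y ∧ galF (p * M) τ y' = y' := by
    intro τ hτ
    have e := congrArg (galF (p * M) τ) hyw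
    rw [map_add, map_mul, map_pow, galF_Jp, hwfix τ hτ, ← hyw] at e
    have hd : μ (galF (p * M) τ y - y) = y' - galF (p * M) τ y' := by
      rw [hμ, LinearMap.mulLeft_apply]
      linear_combination e
    have h0 : μ (galF (p * M) τ y - y) ∈ V.map μ ⊓ V :=
      ⟨⟨_, sub_mem (K.galF_mem_V hτ hy) hy, rfl⟩, by
        rw [hd]; exact sub_mem hy' (K.galF_mem_V hτ hy')⟩
    rw [hinf, Submodule.mem_bot] at h0
    rw [h0] at hd
    exact ⟨sub_eq_zero.mp (hμinj (h0.trans (map_zero μ).symm)), (sub_eq_zero.mp hd.symm).symm⟩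
  -- scaling
  obtain ⟨g, hg, hg', hgne⟩ : ∃ g : ℤ,
      ∃ hg : algebraMap QBar (FB (p * M)) (C.π ^ (-g)) * y ∈ loc2 A (iota2 M p hpM),
      ∃ hg' : algebraMap QBar (FB (p * M)) (C.π ^ (-g)) * y' ∈ loc2 A (iota2 M p hpM),
        red2 A (iota2 M p hpM) ⟨_, hg⟩ ≠ 0 ∨ red2 A (iota2 M p hpM) ⟨_, hg'⟩ ≠ 0 := by
    have hz : ∀ g : ℤ, ∀ e : FB (p * M), e = 0 →
        algebraMap QBar (FB (p * M)) (C.π ^ (-g)) * e ∈ loc2 A (iota2 M p hpM) := fun g e he => by
      rw [he, mul_zero]; exact zero_mem _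
    rcases eq_or_ne y 0 with hy0 | hy0 <;> rcases eq_or_ne y' 0 with hy0' | hy0'
    · refine absurd ?_ htS
      rw [show w = 0 from Subtype.ext (by rw [← hyw, hy0, hy0', mul_zero, add_zero]; rfl), map_zero]
      exact zero_mem _
    · obtain ⟨g, -, hg, hne⟩ := exists_zpow_scale hA hy0' fun τ hτ => (hyfix τ hτ).2
      exact ⟨g, hz g y hy0, hg, Or.inr hne⟩
    · obtain ⟨g, -, hg, hne⟩ := exists_zpow_scale hA hy0 fun τ hτ => (hyfix τ hτ).1
      exact ⟨g, hg, hz g y' hy0', Or.inl hne⟩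
    · obtain ⟨g, hle, hg, hne⟩ := exists_zpow_scale hA hy0 fun τ hτ => (hyfix τ hτ).1
      obtain ⟨g', hle', hg', hne'⟩ := exists_zpow_scale hA hy0' fun τ hτ => (hyfix τ hτ).2
      rcases le_total g g' with hgg | hgg
      · exact ⟨g, hg, hle' g hgg, Or.inl hne⟩
      · exact ⟨g', hle g' hgg, hg', Or.inr hne'⟩
  set c : QBar := C.π ^ (-g) with hc
  have hcfix : ∀ τ ∈ C.H, galF (p * M) τ (algebraMap QBar (FB (p * M)) c) = algebraMap QBar _ c :=
    fun τ hτ => galF_const (by rw [hc, map_zpow₀, C.π_fixed τ hτ])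
  set x : loc2 A (iota2 M p hpM) := ⟨_, hg⟩ with hx
  set z : loc2 A (iota2 M p hpM) := -⟨_, hg'⟩ with hz
  have hxV : (x : FB (p * M)) ∈ V := by
    show algebraMap QBar (FB (p * M)) c * y ∈ V
    rw [← Algebra.smul_def]; exact Submodule.smul_mem _ c hy
  have hzV : (z : FB (p * M)) ∈ V := by
    show -(algebraMap QBar (FB (p * M)) c * y') ∈ V
    rw [← Algebra.smul_def]
    exact neg_mem (Submodule.smul_mem _ c hy')
  have hrel : ((Jp A hpM ^ n * x - z : loc2 A (iota2 M p hpM)) : FB (p * M)) =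
      algebraMap QBar (FB (p * M)) c * (w : FB (p * M)) := by
    rw [← hyw, hx, hz]
    push_cast
    ring
  have hxB : red2 A (iota2 M p hpM) x ∈ Bn A M p hpM n := hV ▸ mem_redSub.mpr ⟨x, hxV, rfl⟩
  have hzB : red2 A (iota2 M p hpM) z ∈ Bn A M p hpM n := hV ▸ mem_redSub.mpr ⟨z, hzV, rfl⟩
  -- the exponent is positive
  have hg0 : 1 ≤ -g := by
    by_contra hlt
    refine htS ?_
    obtain ⟨e, he⟩ : ∃ e : ℕ, g = e := ⟨g.toNat, by omega⟩
    have ew : w = cst hpM ⟨C.π ^ e, pow_mem (mem_of_mem_nonunits C.π_nonunit) e⟩ *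
        (Jp A hpM ^ n * x - z) := Subtype.ext (by
      rw [Subring.coe_mul, hrel, coe_cst, ← mul_assoc, ← map_mul,
        show C.π ^ e * c = 1 by
          rw [hc, he, ← zpow_natCast, ← zpow_add₀ C.π_ne_zero, add_neg_cancel, zpow_zero],
        map_one, one_mul])
    rw [ew, red2_cst_mul, map_sub, map_mul, red2_Jp_pow]
    exact Submodule.smul_mem _ _ (sub_mem (Submodule.mem_sup_left ⟨_, hxB, rfl⟩)
      (Submodule.mem_sup_right hzB))
  obtain ⟨k, hk⟩ : ∃ k : ℕ, -g = k := ⟨(-g).toNat, by omega⟩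
  have hcA : c ∈ A := by rw [hc, hk, zpow_natCast]; exact pow_mem (mem_of_mem_nonunits C.π_nonunit) k
  have hck : (⟨C.π ^ k, pow_mem (mem_of_mem_nonunits C.π_nonunit) k⟩ : A) = ⟨c, hcA⟩ :=
    Subtype.ext (show C.π ^ k = c by rw [hc, hk, zpow_natCast])
  have erel : Jp A hpM ^ n * x = z + cst hpM ⟨c, hcA⟩ * w := Subtype.ext (by
    have e' := hrel
    push_cast [coe_cst] at e' ⊢
    linear_combination e')
  have hc0 : IsLocalRing.residue A ⟨c, hcA⟩ = 0 := by
    rw [← hck]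
    refine (IsLocalRing.residue_eq_zero_iff _).mpr ?_
    rw [show (⟨C.π ^ k, pow_mem (mem_of_mem_nonunits C.π_nonunit) k⟩ : A) =
      ⟨C.π, mem_of_mem_nonunits C.π_nonunit⟩ ^ k from rfl]
    exact Ideal.pow_mem_of_mem _ (ValuationSubring.coe_mem_nonunits_iff.mp C.π_nonunit) k (by omega)
  have hjx : jPow A p n * red2 A (iota2 M p hpM) x = red2 A (iota2 M p hpM) z := by
    have e := congrArg (red2 A (iota2 M p hpM)) erel
    rwa [map_mul, red2_Jp_pow, map_add, red2_cst_mul, hc0, zero_smul, add_zero] at e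
  obtain ⟨β, hβ⟩ := hn₅ n (by omega) _ hxB (cancel_jPow (Bn_le_Pk M p hpM hA hM n hxB)
    (by rw [hjx]; exact Bn_le_Pk M p hpM hA hM n hzB) (by omega))
  have hzβ : red2 A (iota2 M p hpM) z = β • jPow A p n := by
    rw [← hjx, hβ, mul_pi_smul, mul_one]
  have hβ0 : β ≠ 0 := by
    rintro rfl
    rw [zero_smul] at hβ hzβ
    rw [hz, map_neg, neg_eq_zero] at hzβ
    exact hgne.elim (fun h' => h' hβ) (fun h' => h' hzβ)
  refine ⟨k, β, x, z, w, by omega, hβ0, hxV, hzV, fun τ hτ => ?_, fun τ hτ => ?_, hwfix,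
    by rw [hck]; exact erel, hβ, hzβ, ?_, htS⟩
  · show galF (p * M) τ (_ * y) = _ * y
    rw [map_mul, hcfix τ hτ, (hyfix τ hτ).1]
  · show galF (p * M) τ (-(_ * y')) = -(_ * y')
    rw [map_neg, map_mul, hcfix τ hτ, (hyfix τ hτ).2]
  · have hW2 : (w : FB (p * M)) ∈ K.V (n + n) := by
      rw [← hyw]
      refine add_mem ?_ ?_
      · rw [SetLike.mem_coe, hVdef, Kum.mem_V] at hy
        rw [Kum.mem_V]
        rw [mul_pow, mul_assoc, ← pow_mul, mul_comm n p, mul_add]
        exact mul_mem_polesSpace (Jp_pow_mem_HN _) hy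
      · rw [hVdef, Kum.mem_V] at hy'
        rw [Kum.mem_V]
        exact RedTorsion.polesSpace_mono (Nat.mul_le_mul_left _ (Nat.le_add_right _ _)) hy'
    rw [← hn₂ (n + n) (by omega)]
    exact mem_redSub.mpr ⟨w, hW2, rfl⟩

end Fermat.Agent.RT.MazurP

end
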